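import Fermat.Agent.S55.KC.Spec
import Fermat.Agent.S55.KL.H510.Surj2Core
import Fermat.Agent.S55.KL.H510.TopLocIndCore
import Fermat.Agent.S55.KL.H510.KummerH3Core

/-!
# S55 / layer KC (helper53): leaves P2, P4, K3 in the exact shape of `KC/Spec.lean` (helper510)

Adapters to the cores `KL/H510/{Surj2Core,TopLocIndCore,KummerH3Core}.lean`.
-/

set_option autoImplicit false

namespace Fermat.Agent.S55.KC.H510

open Fermat.Agent.S55.PT Fermat.Agent.S55.KC

/-- **KC-P2.** -/
theorem surj2OfH3 : Surj2OfH3Spec := fun G _ L p _ hNC hH3 =>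
  Fermat.Agent.S55.KL.H510.surj2OfH3_core_h510 G L p hNC hH3

/-- **KC-P4.** -/
theorem topLocIndOf : TopLocIndOfSpec :=
  Fermat.Agent.S55.KL.H510.topLocIndOf_core_h510

/-- **KC-K3.** -/
theorem kummerH3 : KummerH3Spec := fun G _ L p _ M B ι hNC hFI hsm hdiv hK hH3 hH2 =>
  Fermat.Agent.S55.KL.H510.kummerH3_core_h510 G L p M B ι hNC hFI hsm hdiv
    hK.injective hK.equivariant hK.range_eq hH3 hH2

end Fermat.Agent.S55.KC.H510
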